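import Mathlib

/-!
# A logarithmic derivative on the units of the `p`-th cyclotomic ring of integers

For an odd prime `p` and the `p`-th cyclotomic field `K` we construct the ring homomorphism
`Psi : 𝓞 K → (𝔽_p[T]/(T^(p-2)))[ε]`, `ζ ↦ (1 + T) + ε` (dual numbers), and the group homomorphism
`dlog : (𝓞 K)ˣ →* Multiplicative (𝔽_p[T]/(T^(p-2)))`, `u ↦ snd (Psi u) / fst (Psi u)`.
It kills every unit congruent to a rational integer modulo `p` (`dlog_eq_one_of_dvd`).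
-/

set_option autoImplicit false
set_option linter.unusedSectionVars false

open NumberField Polynomial

namespace Fermat.Agent.S11.H11

variable (p : ℕ) [hp : Fact p.Prime]

/-- The truncated polynomial ring `𝔽_p[T]/(T^(p-2))`. -/
abbrev S2 : Type := (ZMod p)[X] ⧸ Ideal.span {(X : (ZMod p)[X]) ^ (p - 2)}

/-- The class of `T`. -/
noncomputable def tt : S2 p := Ideal.Quotient.mk _ X

theorem tt_pow : tt p ^ (p - 2) = 0 := by
  rw [tt, ← map_pow, Ideal.Quotient.eq_zero_iff_mem]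
  exact Ideal.subset_span rfl

/-- The dual number `(1 + T) + ε`. -/
noncomputable def xi : DualNumber (S2 p) := TrivSqZeroExt.inl (1 + tt p) + TrivSqZeroExt.inr 1

theorem fst_xi : (xi p).fst = 1 + tt p := by simp [xi]
theorem snd_xi : (xi p).snd = 1 := by simp [xi]

theorem natCast_p_eq_zero : ((p : ℕ) : DualNumber (S2 p)) = 0 := by
  rw [← map_natCast (algebraMap (ZMod p) (DualNumber (S2 p))) p, ZMod.natCast_self, map_zero]

include hp in
theorem xi_sub_one_pow (hp3 : 3 ≤ p) : (xi p - 1) ^ (p - 1) = 0 := by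
  have h1 : xi p - 1 = TrivSqZeroExt.inl (tt p) + TrivSqZeroExt.inr 1 := by
    ext <;> simp [xi]
  rw [h1]
  ext
  · simp only [TrivSqZeroExt.fst_pow, TrivSqZeroExt.fst_add, TrivSqZeroExt.fst_inl,
      TrivSqZeroExt.fst_inr, add_zero, TrivSqZeroExt.fst_zero]
    have : p - 1 = (p - 2) + 1 := by omega
    rw [this, pow_succ, tt_pow, zero_mul]
  · simp only [TrivSqZeroExt.snd_pow, TrivSqZeroExt.fst_add, TrivSqZeroExt.fst_inl,
      TrivSqZeroExt.fst_inr, add_zero, TrivSqZeroExt.snd_zero]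
    have : (p - 1).pred = p - 2 := by simp only [Nat.pred_eq_sub_one]; omega
    rw [this, tt_pow]
    simp

include hp in
theorem aeval_xi_cyclotomic (hp3 : 3 ≤ p) : aeval (xi p) (cyclotomic p ℤ) = 0 := by
  have h1 : cyclotomic p (ZMod p) = (X - 1) ^ (p - 1) := by
    have := cyclotomic_mul_prime_pow_eq (ZMod p) (p := p) (m := 1) hp.out.not_dvd_one
      (k := 1) one_pos
    simpa [cyclotomic_one] using this
  have h2 : aeval (xi p) (cyclotomic p ℤ) = aeval (xi p) (cyclotomic p (ZMod p)) := by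
    rw [← map_cyclotomic_int p (ZMod p)]
    exact (aeval_map_algebraMap (ZMod p) (xi p) (cyclotomic p ℤ)).symm
  rw [h2, h1]
  simp [xi_sub_one_pow p hp3]

section hom

variable (K : Type) [Field K] [NumberField K] [IsCyclotomicExtension {p} ℚ K]

include hp in
theorem aeval_xi_minpoly (hp3 : 3 ≤ p) {ζ : K} (hζ : IsPrimitiveRoot ζ p) :
    aeval (xi p) (minpoly ℤ hζ.integralPowerBasis.gen) = 0 := by
  have : NeZero p := ⟨hp.out.ne_zero⟩
  rw [hζ.integralPowerBasis_gen, ← RingOfIntegers.minpoly_coe]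
  change aeval (xi p) (minpoly ℤ ζ) = 0
  rw [← cyclotomic_eq_minpoly hζ hp.out.pos]
  exact aeval_xi_cyclotomic p hp3

/-- The ring homomorphism `𝓞 K → (𝔽_p[T]/(T^(p-2)))[ε]`, `ζ ↦ (1 + T) + ε`. -/
noncomputable def Psi (hp3 : 3 ≤ p) {ζ : K} (hζ : IsPrimitiveRoot ζ p) :
    𝓞 K →ₐ[ℤ] DualNumber (S2 p) :=
  hζ.integralPowerBasis.lift (xi p) (aeval_xi_minpoly p K hp3 hζ)

theorem Psi_zeta (hp3 : 3 ≤ p) {ζ : K} (hζ : IsPrimitiveRoot ζ p) :
    Psi p K hp3 hζ hζ.toInteger = xi p := by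
  have : NeZero p := ⟨hp.out.ne_zero⟩
  have h := hζ.integralPowerBasis.lift_gen (xi p) (aeval_xi_minpoly p K hp3 hζ)
  rwa [hζ.integralPowerBasis_gen] at h

/-- The first component of `Psi` as a monoid homomorphism. -/
noncomputable def fstPsi (hp3 : 3 ≤ p) {ζ : K} (hζ : IsPrimitiveRoot ζ p) : 𝓞 K →* S2 p :=
  ((TrivSqZeroExt.fstHom (ZMod p) (S2 p) (S2 p)).toRingHom.comp
    (Psi p K hp3 hζ).toRingHom).toMonoidHom

theorem fstPsi_apply (hp3 : 3 ≤ p) {ζ : K} (hζ : IsPrimitiveRoot ζ p) (x : 𝓞 K) :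
    fstPsi p K hp3 hζ x = (Psi p K hp3 hζ x).fst := rfl

omit hp in
theorem dlog_aux {S : Type*} [CommRing S] (a a' : Sˣ) (b b' : S) :
    ((a : S) * b' + b * (a' : S)) * ((a * a')⁻¹ : Sˣ) = b * (a⁻¹ : Sˣ) + b' * (a'⁻¹ : Sˣ) := by
  rw [Units.mul_inv_eq_iff_eq_mul, Units.val_mul, add_mul]
  have h1 : b * ((a⁻¹ : Sˣ) : S) * ((a : S) * (a' : S)) = b * (a' : S) := by
    rw [mul_assoc, ← mul_assoc ((a⁻¹ : Sˣ) : S), Units.inv_mul, one_mul]
  have h2 : b' * ((a'⁻¹ : Sˣ) : S) * ((a : S) * (a' : S)) = (a : S) * b' := by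
    rw [mul_comm (a : S) (a' : S), mul_assoc, ← mul_assoc ((a'⁻¹ : Sˣ) : S), Units.inv_mul,
      one_mul, mul_comm]
  rw [h1, h2, add_comm]

/-- The logarithmic derivative `u ↦ snd (Ψ u) / fst (Ψ u)`. -/
noncomputable def dlog (hp3 : 3 ≤ p) {ζ : K} (hζ : IsPrimitiveRoot ζ p) :
    (𝓞 K)ˣ →* Multiplicative (S2 p) where
  toFun u := Multiplicative.ofAdd
    ((Psi p K hp3 hζ (u : 𝓞 K)).snd * ((Units.map (fstPsi p K hp3 hζ) u)⁻¹ : (S2 p)ˣ))
  map_one' := by simp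
  map_mul' u v := by
    rw [← ofAdd_add]
    congr 1
    have hu : (Psi p K hp3 hζ (u : 𝓞 K)).fst =
        ((Units.map (fstPsi p K hp3 hζ) u : (S2 p)ˣ) : S2 p) := rfl
    have hv : (Psi p K hp3 hζ (v : 𝓞 K)).fst =
        ((Units.map (fstPsi p K hp3 hζ) v : (S2 p)ˣ) : S2 p) := rfl
    simp only [Units.val_mul, map_mul, TrivSqZeroExt.snd_mul, smul_eq_mul,
      MulOpposite.smul_eq_mul_unop, MulOpposite.unop_op]
    rw [hu, hv]
    exact dlog_aux _ _ _ _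

theorem toAdd_dlog (hp3 : 3 ≤ p) {ζ : K} (hζ : IsPrimitiveRoot ζ p) (u : (𝓞 K)ˣ) :
    Multiplicative.toAdd (dlog p K hp3 hζ u) =
      (Psi p K hp3 hζ (u : 𝓞 K)).snd * ((Units.map (fstPsi p K hp3 hζ) u)⁻¹ : (S2 p)ˣ) := rfl

/-- Practical criterion to compute `dlog`. -/
theorem toAdd_dlog_eq (hp3 : 3 ≤ p) {ζ : K} (hζ : IsPrimitiveRoot ζ p) (u : (𝓞 K)ˣ) (c : S2 p)
    (h : (Psi p K hp3 hζ (u : 𝓞 K)).snd = c * (Psi p K hp3 hζ (u : 𝓞 K)).fst) :
    Multiplicative.toAdd (dlog p K hp3 hζ u) = c := by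
  rw [toAdd_dlog, Units.mul_inv_eq_iff_eq_mul, h]
  rfl

include hp in
/-- `dlog` kills the units congruent to a rational integer modulo `p`. -/
theorem dlog_eq_one_of_dvd (hp3 : 3 ≤ p) {ζ : K} (hζ : IsPrimitiveRoot ζ p) (u : (𝓞 K)ˣ) (n : ℤ)
    (h : (p : 𝓞 K) ∣ (u : 𝓞 K) - (n : 𝓞 K)) : dlog p K hp3 hζ u = 1 := by
  obtain ⟨w, hw⟩ := h
  have hu : (u : 𝓞 K) = (n : 𝓞 K) + (p : 𝓞 K) * w := by rw [← hw]; ring
  have h1 : Psi p K hp3 hζ (u : 𝓞 K) = (n : DualNumber (S2 p)) := by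
    rw [hu, map_add, map_mul, map_intCast, map_natCast, natCast_p_eq_zero, zero_mul, add_zero]
  apply Multiplicative.toAdd.injective
  rw [toAdd_dlog, h1, TrivSqZeroExt.snd_intCast, zero_mul]
  rfl

theorem Psi_one_add_zeta_pow (hp3 : 3 ≤ p) {ζ : K} (hζ : IsPrimitiveRoot ζ p) (j : ℕ) :
    Psi p K hp3 hζ (1 + hζ.toInteger ^ j) = 1 + xi p ^ j := by
  rw [map_add, map_one, map_pow, Psi_zeta]

theorem fst_one_add_xi_pow (j : ℕ) : (1 + xi p ^ j).fst = 1 + (1 + tt p) ^ j := by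
  simp [fst_xi]

theorem snd_one_add_xi_pow (j : ℕ) : (1 + xi p ^ j).snd = (j : S2 p) * (1 + tt p) ^ (j - 1) := by
  simp [fst_xi, snd_xi]

omit [NumberField K] [IsCyclotomicExtension {p} ℚ K] in
theorem isUnit_one_add_zeta_pow (hp3 : 3 ≤ p) {ζ : K} (hζ : IsPrimitiveRoot ζ p) {j : ℕ}
    (hj : j.Coprime p) : IsUnit (1 + hζ.toInteger ^ j) := by
  have : NeZero p := ⟨hp.out.ne_zero⟩
  have h1 : IsPrimitiveRoot (hζ.toInteger ^ j) p := hζ.toInteger_isPrimitiveRoot.pow_of_coprime j hj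
  have h2 : Nat.Coprime 2 p := by
    rw [Nat.coprime_primes Nat.prime_two hp.out]; omega
  have h3 := h1.geom_sum_isUnit (by omega) h2
  simpa [Finset.sum_range_succ] using h3

theorem smul_mk (I : Ideal (ZMod p)[X]) (l : ZMod p) (q : (ZMod p)[X]) :
    l • (Ideal.Quotient.mk I q) = Ideal.Quotient.mk I (C l * q) := by
  rw [← smul_eq_C_mul]
  rfl

theorem mk_X : Ideal.Quotient.mk (Ideal.span {(X : (ZMod p)[X]) ^ (p - 2)}) X = tt p := rfl

/-- `ζ` as a unit of `𝓞 K`. -/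
noncomputable def zetaUnit {ζ : K} (hζ : IsPrimitiveRoot ζ p) : (𝓞 K)ˣ :=
  have : NeZero p := ⟨hp.out.ne_zero⟩
  (hζ.toInteger_isPrimitiveRoot.isUnit hp.out.ne_zero).unit

theorem zetaUnit_val {ζ : K} (hζ : IsPrimitiveRoot ζ p) :
    ((zetaUnit p K hζ : (𝓞 K)ˣ) : 𝓞 K) = hζ.toInteger := rfl

theorem zetaUnit_isPrimitiveRoot {ζ : K} (hζ : IsPrimitiveRoot ζ p) :
    IsPrimitiveRoot (zetaUnit p K hζ) p := by
  have : NeZero p := ⟨hp.out.ne_zero⟩
  rw [← IsPrimitiveRoot.coe_units_iff, zetaUnit_val]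
  exact hζ.toInteger_isPrimitiveRoot

/-- `1 + ζ ^ j` as a unit of `𝓞 K`. -/
noncomputable def oneAddUnit (hp3 : 3 ≤ p) {ζ : K} (hζ : IsPrimitiveRoot ζ p) (j : ℕ)
    (hj : j.Coprime p) : (𝓞 K)ˣ :=
  (isUnit_one_add_zeta_pow p K hp3 hζ hj).unit

theorem oneAddUnit_val (hp3 : 3 ≤ p) {ζ : K} (hζ : IsPrimitiveRoot ζ p) (j : ℕ)
    (hj : j.Coprime p) :
    ((oneAddUnit p K hp3 hζ j hj : (𝓞 K)ˣ) : 𝓞 K) = 1 + hζ.toInteger ^ j := rfl

theorem toAdd_dlog_zetaUnit_eq (hp3 : 3 ≤ p) {ζ : K} (hζ : IsPrimitiveRoot ζ p) (c : S2 p)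
    (h : 1 = c * (1 + tt p)) :
    Multiplicative.toAdd (dlog p K hp3 hζ (zetaUnit p K hζ)) = c := by
  apply toAdd_dlog_eq
  rw [zetaUnit_val, Psi_zeta, snd_xi, fst_xi]
  exact h

theorem toAdd_dlog_oneAddUnit_eq (hp3 : 3 ≤ p) {ζ : K} (hζ : IsPrimitiveRoot ζ p) (j : ℕ)
    (hj : j.Coprime p) (c : S2 p)
    (h : (j : S2 p) * (1 + tt p) ^ (j - 1) = c * (1 + (1 + tt p) ^ j)) :
    Multiplicative.toAdd (dlog p K hp3 hζ (oneAddUnit p K hp3 hζ j hj)) = c := by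
  apply toAdd_dlog_eq
  rw [oneAddUnit_val, Psi_one_add_zeta_pow, snd_one_add_xi_pow, fst_one_add_xi_pow]
  exact h

theorem natCast_p_S2 : ((p : ℕ) : S2 p) = 0 := by
  rw [← map_natCast (algebraMap (ZMod p) (S2 p)) p, ZMod.natCast_self, map_zero]

end hom

end Fermat.Agent.S11.H11
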