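import Mathlib
import Fermat.Agent.S11.KummerAbstract
import Fermat.Agent.S11.H11.Dlog

/-!
# Kummer's lemma for `p = 11`

Every unit of the ring of integers of the `11`-th cyclotomic field which is congruent to a rational
integer modulo `11` is a `11`-th power.  The proof combines the abstract criterion
`Fermat.Agent.S11.kummer_of_dlog` with the logarithmic derivative `dlog` and an explicit
linear-independence certificate for the units `ζ` and `1 + ζ ^ j` (`1 ≤ j ≤ 4`).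
(This file is generated from a computer-found certificate; all checks are by `linear_combination`.)
-/

set_option autoImplicit false
set_option linter.unusedSectionVars false
set_option linter.unusedVariables false
set_option linter.unusedSimpArgs false

open NumberField Polynomial

namespace Fermat.Agent.S11.H11

section eleven

variable (K : Type) [Field K] [NumberField K] [IsCyclotomicExtension {11} ℚ K]

theorem prime_eleven : Fact (Nat.Prime 11) := ⟨by norm_num⟩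

attribute [local instance] prime_eleven

theorem tt_pow_eleven : tt 11 ^ 9 = 0 := tt_pow 11

theorem ofNat_eleven : (11 : S2 11) = 0 := by
  have h := natCast_p_S2 11
  exact_mod_cast h

theorem zmod_eleven : (11 : ZMod 11) = 0 := by decide

/-- Certificate polynomial number 0. -/
noncomputable def cpoly_eleven_0 : (ZMod 11)[X] := 1 + 10 * X + 1 * X ^ 2 + 10 * X ^ 3 + 1 * X ^ 4 + 10 * X ^ 5 + 1 * X ^ 6 + 10 * X ^ 7 + 1 * X ^ 8

theorem mk_cpoly_eleven_0 : Ideal.Quotient.mk (Ideal.span {(X : (ZMod 11)[X]) ^ (11 - 2)}) cpoly_eleven_0 =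
    1 + 10 * tt 11 + 1 * tt 11 ^ 2 + 10 * tt 11 ^ 3 + 1 * tt 11 ^ 4 + 10 * tt 11 ^ 5 + 1 * tt 11 ^ 6 + 10 * tt 11 ^ 7 + 1 * tt 11 ^ 8 := by
  simp only [cpoly_eleven_0, map_add, map_mul, map_pow, map_ofNat, map_one, mk_X]

/-- Certificate polynomial number 1. -/
noncomputable def cpoly_eleven_1 : (ZMod 11)[X] := 6 + 8 * X + 7 * X ^ 2 + 2 * X ^ 3 + 10 * X ^ 4 + 6 * X ^ 5 + 8 * X ^ 6 + 7 * X ^ 7 + 2 * X ^ 8

theorem mk_cpoly_eleven_1 : Ideal.Quotient.mk (Ideal.span {(X : (ZMod 11)[X]) ^ (11 - 2)}) cpoly_eleven_1 =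
    6 + 8 * tt 11 + 7 * tt 11 ^ 2 + 2 * tt 11 ^ 3 + 10 * tt 11 ^ 4 + 6 * tt 11 ^ 5 + 8 * tt 11 ^ 6 + 7 * tt 11 ^ 7 + 2 * tt 11 ^ 8 := by
  simp only [cpoly_eleven_1, map_add, map_mul, map_pow, map_ofNat, map_one, mk_X]

/-- Certificate polynomial number 2. -/
noncomputable def cpoly_eleven_2 : (ZMod 11)[X] := 1 + 5 * X ^ 2 + 6 * X ^ 3 + 8 * X ^ 4 + 7 * X ^ 6 + 4 * X ^ 7 + 9 * X ^ 8

theorem mk_cpoly_eleven_2 : Ideal.Quotient.mk (Ideal.span {(X : (ZMod 11)[X]) ^ (11 - 2)}) cpoly_eleven_2 =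
    1 + 5 * tt 11 ^ 2 + 6 * tt 11 ^ 3 + 8 * tt 11 ^ 4 + 7 * tt 11 ^ 6 + 4 * tt 11 ^ 7 + 9 * tt 11 ^ 8 := by
  simp only [cpoly_eleven_2, map_add, map_mul, map_pow, map_ofNat, map_one, mk_X]

/-- Certificate polynomial number 3. -/
noncomputable def cpoly_eleven_3 : (ZMod 11)[X] := 7 + 9 * X + 5 * X ^ 2 + 3 * X ^ 3 + 4 * X ^ 5 + 9 * X ^ 6 + 8 * X ^ 7

theorem mk_cpoly_eleven_3 : Ideal.Quotient.mk (Ideal.span {(X : (ZMod 11)[X]) ^ (11 - 2)}) cpoly_eleven_3 =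
    7 + 9 * tt 11 + 5 * tt 11 ^ 2 + 3 * tt 11 ^ 3 + 4 * tt 11 ^ 5 + 9 * tt 11 ^ 6 + 8 * tt 11 ^ 7 := by
  simp only [cpoly_eleven_3, map_add, map_mul, map_pow, map_ofNat, map_one, mk_X]

/-- Certificate polynomial number 4. -/
noncomputable def cpoly_eleven_4 : (ZMod 11)[X] := 2 + 2 * X + 7 * X ^ 2 + 7 * X ^ 4 + 4 * X ^ 5 + 6 * X ^ 6 + 6 * X ^ 7 + 8 * X ^ 8

theorem mk_cpoly_eleven_4 : Ideal.Quotient.mk (Ideal.span {(X : (ZMod 11)[X]) ^ (11 - 2)}) cpoly_eleven_4 =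
    2 + 2 * tt 11 + 7 * tt 11 ^ 2 + 7 * tt 11 ^ 4 + 4 * tt 11 ^ 5 + 6 * tt 11 ^ 6 + 6 * tt 11 ^ 7 + 8 * tt 11 ^ 8 := by
  simp only [cpoly_eleven_4, map_add, map_mul, map_pow, map_ofNat, map_one, mk_X]

theorem dlog_zeta_eleven {ζ : K} (hζ : IsPrimitiveRoot ζ 11) :
    Multiplicative.toAdd (dlog 11 K (by norm_num) hζ (zetaUnit 11 K hζ)) =
      Ideal.Quotient.mk _ cpoly_eleven_0 := by
  apply toAdd_dlog_zetaUnit_eq
  rw [mk_cpoly_eleven_0]
  have ht := tt_pow_eleven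
  have hc := ofNat_eleven
  linear_combination ((-1)) * ht + ((-1) * tt 11 + (-1) * tt 11 ^ 2 + (-1) * tt 11 ^ 3 + (-1) * tt 11 ^ 4 + (-1) * tt 11 ^ 5 + (-1) * tt 11 ^ 6 + (-1) * tt 11 ^ 7 + (-1) * tt 11 ^ 8) * hc

theorem coprime_eleven_1 : Nat.Coprime 1 11 := by norm_num

theorem dlog_unit_eleven_1 {ζ : K} (hζ : IsPrimitiveRoot ζ 11) :
    Multiplicative.toAdd (dlog 11 K (by norm_num) hζ
      (oneAddUnit 11 K (by norm_num) hζ 1 coprime_eleven_1)) =
      Ideal.Quotient.mk _ cpoly_eleven_1 := by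
  apply toAdd_dlog_oneAddUnit_eq
  rw [mk_cpoly_eleven_1]
  have ht := tt_pow_eleven
  have hc := ofNat_eleven
  push_cast
  linear_combination ((-2)) * ht + ((-1) + (-2) * tt 11 + (-2) * tt 11 ^ 2 + (-1) * tt 11 ^ 3 + (-2) * tt 11 ^ 4 + (-2) * tt 11 ^ 5 + (-2) * tt 11 ^ 6 + (-2) * tt 11 ^ 7 + (-1) * tt 11 ^ 8) * hc

theorem coprime_eleven_2 : Nat.Coprime 2 11 := by norm_num

theorem dlog_unit_eleven_2 {ζ : K} (hζ : IsPrimitiveRoot ζ 11) :
    Multiplicative.toAdd (dlog 11 K (by norm_num) hζ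
      (oneAddUnit 11 K (by norm_num) hζ 2 coprime_eleven_2)) =
      Ideal.Quotient.mk _ cpoly_eleven_2 := by
  apply toAdd_dlog_oneAddUnit_eq
  rw [mk_cpoly_eleven_2]
  have ht := tt_pow_eleven
  have hc := ofNat_eleven
  push_cast
  linear_combination ((-22) + (-9) * tt 11) * ht + ((-1) * tt 11 ^ 2 + (-2) * tt 11 ^ 3 + (-3) * tt 11 ^ 4 + (-2) * tt 11 ^ 5 + (-2) * tt 11 ^ 6 + (-2) * tt 11 ^ 7 + (-3) * tt 11 ^ 8) * hc

theorem coprime_eleven_3 : Nat.Coprime 3 11 := by norm_num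

theorem dlog_unit_eleven_3 {ζ : K} (hζ : IsPrimitiveRoot ζ 11) :
    Multiplicative.toAdd (dlog 11 K (by norm_num) hζ
      (oneAddUnit 11 K (by norm_num) hζ 3 coprime_eleven_3)) =
      Ideal.Quotient.mk _ cpoly_eleven_3 := by
  apply toAdd_dlog_oneAddUnit_eq
  rw [mk_cpoly_eleven_3]
  have ht := tt_pow_eleven
  have hc := ofNat_eleven
  push_cast
  linear_combination ((-33) + (-8) * tt 11) * ht + ((-1) + (-3) * tt 11 + (-5) * tt 11 ^ 2 + (-5) * tt 11 ^ 3 + (-3) * tt 11 ^ 4 + (-2) * tt 11 ^ 5 + (-3) * tt 11 ^ 6 + (-5) * tt 11 ^ 7 + (-5) * tt 11 ^ 8) * hc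

theorem coprime_eleven_4 : Nat.Coprime 4 11 := by norm_num

theorem dlog_unit_eleven_4 {ζ : K} (hζ : IsPrimitiveRoot ζ 11) :
    Multiplicative.toAdd (dlog 11 K (by norm_num) hζ
      (oneAddUnit 11 K (by norm_num) hζ 4 coprime_eleven_4)) =
      Ideal.Quotient.mk _ cpoly_eleven_4 := by
  apply toAdd_dlog_oneAddUnit_eq
  rw [mk_cpoly_eleven_4]
  have ht := tt_pow_eleven
  have hc := ofNat_eleven
  push_cast
  linear_combination ((-96) + (-78) * tt 11 + (-38) * tt 11 ^ 2 + (-8) * tt 11 ^ 3) * ht + ((-2) * tt 11 ^ 2 + (-4) * tt 11 ^ 3 + (-6) * tt 11 ^ 4 + (-6) * tt 11 ^ 5 + (-7) * tt 11 ^ 6 + (-8) * tt 11 ^ 7 + (-9) * tt 11 ^ 8) * hc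

/-- The family of units `1 + ζ ^ j`, `1 ≤ j ≤ 4`. -/
noncomputable def unitFamily_eleven {ζ : K} (hζ : IsPrimitiveRoot ζ 11) : Fin 4 → (𝓞 K)ˣ :=
  ![oneAddUnit 11 K (by norm_num) hζ 1 coprime_eleven_1, oneAddUnit 11 K (by norm_num) hζ 2 coprime_eleven_2, oneAddUnit 11 K (by norm_num) hζ 3 coprime_eleven_3, oneAddUnit 11 K (by norm_num) hζ 4 coprime_eleven_4]

theorem linearIndependent_eleven {ζ : K} (hζ : IsPrimitiveRoot ζ 11) :
    LinearIndependent (ZMod 11) (fun i : Option (Fin 4) =>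
      Multiplicative.toAdd (dlog 11 K (by norm_num) hζ
        (i.elim (zetaUnit 11 K hζ) (unitFamily_eleven K hζ)))) := by
  rw [Fintype.linearIndependent_iff]
  intro l hl
  rw [Fintype.sum_option, Fin.sum_univ_four] at hl
  simp only [Option.elim, unitFamily_eleven, Matrix.cons_val_zero, Matrix.cons_val_one, Matrix.cons_val] at hl
  rw [dlog_zeta_eleven, dlog_unit_eleven_1, dlog_unit_eleven_2, dlog_unit_eleven_3, dlog_unit_eleven_4] at hl
  simp only [smul_mk, ← map_add] at hl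
  rw [Ideal.Quotient.eq_zero_iff_mem, Ideal.mem_span_singleton] at hl
  have hcoef := X_pow_dvd_iff.mp hl
  have hz := zmod_eleven
  have e0 := hcoef 0 (by norm_num)
  have e1 := hcoef 1 (by norm_num)
  have e2 := hcoef 2 (by norm_num)
  have e3 := hcoef 3 (by norm_num)
  have e4 := hcoef 4 (by norm_num)
  have e5 := hcoef 5 (by norm_num)
  have e6 := hcoef 6 (by norm_num)
  have e7 := hcoef 7 (by norm_num)
  have e8 := hcoef 8 (by norm_num)
  simp only [cpoly_eleven_0, cpoly_eleven_1, cpoly_eleven_2, cpoly_eleven_3, cpoly_eleven_4, coeff_add, coeff_C_mul, coeff_ofNat_mul,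
    coeff_X_pow, coeff_X, coeff_one, coeff_ofNat_zero, coeff_ofNat_succ] at e0 e1 e2 e3 e4 e5 e6 e7 e8
  norm_num at e0 e1 e2 e3 e4 e5 e6 e7 e8
  have h0 : l none = 0 := by
    linear_combination (2) * e0 + (5) * e1 + (9) * e3 + (1) * e5 + (8) * e7 + ((-21) * l none + (-12) * l (some 0) + (-8) * l (some 1) + (-14) * l (some 2) + (-6) * l (some 3)) * hz
  have h1 : l (some 0) = 0 := by
    linear_combination (4) * e0 + (10) * e1 + (5) * e3 + (3) * e5 + (8) * e7 + ((-24) * l none + (-17) * l (some 0) + (-6) * l (some 1) + (-19) * l (some 2) + (-8) * l (some 3)) * hz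
  have h2 : l (some 1) = 0 := by
    linear_combination (9) * e0 + (2) * e1 + (5) * e3 + (6) * e5 + (7) * e7 + ((-19) * l none + (-15) * l (some 0) + (-6) * l (some 1) + (-16) * l (some 2) + (-8) * l (some 3)) * hz
  have h3 : l (some 2) = 0 := by
    linear_combination (2) * e0 + (2) * e1 + (1) * e3 + (1) * e5 + (9) * e7 + ((-12) * l none + (-9) * l (some 0) + (-4) * l (some 1) + (-10) * l (some 2) + (-6) * l (some 3)) * hz
  have h4 : l (some 3) = 0 := by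
    linear_combination (9) * e0 + (9) * e1 + (2) * e3 + (6) * e5 + (3) * e7 + ((-19) * l none + (-17) * l (some 0) + (-3) * l (some 1) + (-18) * l (some 2) + (-7) * l (some 3)) * hz
  intro i
  match i with
  | none => exact h0
  | some ⟨0, _⟩ => exact h1
  | some ⟨1, _⟩ => exact h2
  | some ⟨2, _⟩ => exact h3
  | some ⟨3, _⟩ => exact h4

/-- **Kummer's lemma for `p = 11`.** -/
theorem kummer_eleven (u : (𝓞 K)ˣ) (n : ℤ) (h : ((11 : ℕ) : 𝓞 K) ∣ (u : 𝓞 K) - (n : 𝓞 K)) :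
    ∃ v : (𝓞 K)ˣ, u = v ^ 11 := by
  have hζ := IsCyclotomicExtension.zeta_spec 11 ℚ K
  have hr : NumberField.Units.rank K ≤ Fintype.card (Fin 4) := by
    rw [Fermat.Agent.S11.rank_eq (p := 11) K (by norm_num), Fintype.card_fin]
  exact Fermat.Agent.S11.kummer_of_dlog K (by norm_num) (dlog 11 K (by norm_num) hζ)
    (dlog_eq_one_of_dvd 11 K (by norm_num) hζ) (zetaUnit 11 K hζ) (zetaUnit_isPrimitiveRoot 11 K hζ)
    hr (unitFamily_eleven K hζ) (linearIndependent_eleven K hζ) u n h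

end eleven

end Fermat.Agent.S11.H11
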